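import Fermat.Agent.SSP.RatLatB
import Fermat.Agent.SSP.RatON
import Fermat.Agent.ND.Param
import Fermat.Agent.S36.F0.Basic
import Fermat.Agent.SS.Mod.Compat

/-!
# [ND-RAT] rationality of the lattices `L(n (j)_∞) ∩ O` of `X₀(M q)` over the inertia field

`q` = residue characteristic, `A ∣ q`, `II` = inertia group at `A` acting on `FN (M * q)`.
Main result `rat_inertia : Rat 𝒩 (inertiaSet A (M * q))` (via `SSP.rat_of_scale`); with
`ND.Rat.exists_isLocalParam₁/₂` it gives an inertia-fixed local parameter at EVERY good point of the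
special fibre.
-/

set_option autoImplicit false
set_option linter.unusedSectionVars false
set_option linter.style.haveILetI false

noncomputable section

open AlgebraicCurve ModularCurve IsLocalRing Polynomial

namespace Fermat.Agent.ND

open Fermat.Agent.RED hiding Kb
open Fermat.Agent.RED.Gauss Fermat.Agent.S24 Fermat.Agent.SS Fermat.Agent.S36 Fermat.Agent.S28
open Fermat.Agent.RED.Cusp (Fb jb)

variable {M q : ℕ} [NeZero M] [hq : Fact q.Prime] (hqM : ¬ q ∣ M)
variable (A : ValuationSubring Kb)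

/-- the inertia group at `A` acting on the function field of level `N` -/
def inertiaSet (N : ℕ) : Set (SemilinearAut Kb (FN N)) :=
  {g | ∃ σ : GQ, σ ∈ A.inertiaSubgroupIn ℚ ∧ g = gal N σ}

/-- the core unit is rational -/
theorem gal_smul_uF {n : ℕ} {u : LaurentSeries ℤ} (h : IsCoreExt M q n u) (σ : GQ) :
    gal M σ • uF h = uF h := by
  apply Subtype.ext
  rw [coe_gal_smul]
  exact S28.coeffMap_castLS (σ : Kb →+* Kb) u

/-- the orthonormal basis is rational -/
theorem gal_smul_wF {n : ℕ} {u : LaurentSeries ℤ} (h : IsCoreExt M q n u) (σ : GQ)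
    (x : Fin n × Fin (q + 1)) : gal (M * q) σ • wF h x = wF h x := by
  have h1 : gal (M * q) σ • heckeAlphaBar Kb M q (uF h) = heckeAlphaBar Kb M q (uF h) := by
    apply Subtype.ext
    rw [coe_gal_smul, coe_heckeAlphaBar]
    exact S28.coeffMap_castLS (σ : Kb →+* Kb) u
  have h2 : gal (M * q) σ • heckeBetaBar Kb M q (jF M) = heckeBetaBar Kb M q (jF M) := by
    have h3 : heckeBetaBar Kb M q (jF M) =
        jBar (M * q) (q * 1) (ES.mul_dvd_of_dvd M q (one_dvd M)) :=
      ES.heckeBetaBar_jBar M q 1 (one_dvd M)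
    rw [h3, gal_smul_jBar]
  rw [wF, smul_mul', smul_pow', smul_pow', h1, h2]

variable [CharP (ResidueField A) q] [IsAlgClosed (ResidueField A)]

/-- **the sup-norm of an inertia-fixed function is a power of `q`.** -/
theorem exists_zpow_scale (hA : A.LiesOverPrime q) {u : FN (M * q)}
    (hu : ∀ σ ∈ A.inertiaSubgroupIn ℚ, gal (M * q) σ • u = u) (hu0 : u ≠ 0) :
    ∃ (n : ℤ), u * (algebraMap Kb (FN (M * q)) (q : Kb) ^ n)⁻¹ ∈
        (RR hqM (IsLocalRing.residue A) IsLocalRing.residue_surjective).O ∧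
      (RR hqM (IsLocalRing.residue A) IsLocalRing.residue_surjective).rd
        (u * (algebraMap Kb (FN (M * q)) (q : Kb) ^ n)⁻¹) ≠ 0 := by
  obtain ⟨u₀, h⟩ := exists_isCoreExt M q hqM
  have hn : Fintype.card (Q M) = dedekindPsi M := by
    rw [← Nat.card_eq_fintype_card]; exact S20.card_quotient_Gamma0 M
  have H := isON hqM (IsLocalRing.residue A) IsLocalRing.residue_surjective h hn
  obtain ⟨c, y', hc, hcfix, hy', hr, hy⟩ := SSP.exists_rat_scale H
    (κ := A.inertiaSubgroupIn ℚ) (fun σ => gal (M * q) (σ : GQ))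
    (fun σ => gal_smul_jF _ _) (fun σ i => gal_smul_wF h _ i) (y := u) (fun σ => hu σ σ.2) hu0
  obtain ⟨n, hn⟩ := exists_zpow_of_inertia_fixed hq.out hA hc (fun σ hσ => hcfix ⟨σ, hσ⟩)
  set R := RR hqM (IsLocalRing.residue A) IsLocalRing.residue_surjective with hR
  have hq0 : (q : Kb) ≠ 0 := by exact_mod_cast hq.out.ne_zero
  have hqv : A.valuation (q : Kb) ≠ 0 := by rwa [Ne, map_eq_zero]
  have hv : A.valuation (c / (q : Kb) ^ n) = 1 := by
    rw [map_div₀, map_zpow₀, hn, div_self (zpow_ne_zero _ hqv)]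
  have he : c / (q : Kb) ^ n ∈ A := (A.valuation_le_one_iff _).mp hv.le
  have hunit : IsUnit (⟨_, he⟩ : A) := (A.valuation_eq_one_iff ⟨_, he⟩).mpr hv
  have e1 : u * (algebraMap Kb (FN (M * q)) (q : Kb) ^ n)⁻¹ =
      algebraMap Kb (FN (M * q)) ((⟨_, he⟩ : A) : Kb) * y' := by
    rw [hy, map_div₀, map_zpow₀]
    ring
  refine ⟨n, ?_, ?_⟩
  · rw [e1]
    exact R.O.mul_mem (R.const_mem _) hy'
  · rw [e1, R.rd_mul (R.const_mem _) hy', R.rd_const]
    intro h0
    have hu2 : IsUnit (algebraMap (ResidueField A) (Fb (ResidueField A) M × Fb (ResidueField A) M)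
        (IsLocalRing.residue A ⟨_, he⟩)) := (hunit.map _).map _
    exact hr ((hu2.mul_right_eq_zero).mp h0)

/-- **[RAT]** the lattices `L(n (j)_∞) ∩ O` of `X₀(M q)` are rational over the inertia field. -/
theorem rat_inertia (hA : A.LiesOverPrime q)
    (𝒩 : NodalData (twoRed hqM (IsLocalRing.residue A) IsLocalRing.residue_surjective))
    (hP : 𝒩.P = polarDiv Kb (jF (M * q))) : Rat 𝒩 (inertiaSet A (M * q)) := by
  have hq0 : (q : Kb) ≠ 0 := by exact_mod_cast hq.out.ne_zero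
  refine SSP.rat_of_scale (RB.isSepParam_jF (M * q))
    (Cusp.isSepParam_jb M (ResidueField A) q hqM) _ ?_ (ϖ := (q : Kb)) hq0 ?_ ?_ ?_ ?_ ?_
  · rintro g ⟨σ, hσ, rfl⟩
    exact isCompat_of_mem_inertia hqM A hσ 𝒩 hP
  · rw [twoRed_A]
    exact A.mem_nonunits_iff.mp hA
  · rintro g ⟨σ, hσ, rfl⟩
    exact map_natCast σ q
  · intro a ha
    rw [twoRed_A] at ha ⊢
    obtain ⟨b, hb1, hb2, hb3⟩ := exists_inertia_fixed_residue hq.out hA
      ((A.valuation_le_one_iff _).mpr ha)
    refine ⟨b, (A.valuation_le_one_iff _).mp hb2, ?_, hb3⟩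
    rintro g ⟨σ, hσ, rfl⟩
    exact hb1 σ hσ
  · intro u hu hu0
    obtain ⟨n, h1, h2⟩ := exists_zpow_scale hqM A hA (u := u)
      (fun σ hσ => hu _ ⟨σ, hσ, rfl⟩) hu0
    refine ⟨n, by rw [twoRed_O]; exact h1, ?_⟩
    rw [twoRed_red]
    exact h2
  · intro V hV
    have := span_inter_range_embF0 A (M * q) V (fun σ hσ w hw => hV _ ⟨σ, hσ, rfl⟩ w hw)
    refine Eq.trans ?_ this
    congr 1
    ext v
    refine and_congr Iff.rfl ?_
    rw [mem_range_embF0_iff]
    exact ⟨fun h σ hσ => h _ ⟨σ, hσ, rfl⟩, by rintro h g ⟨σ, hσ, rfl⟩; exact h σ hσ⟩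

/-- **an inertia-fixed local parameter at every good point of the first component.** -/
theorem exists_inertia_localParam₁ (hA : A.LiesOverPrime q)
    (𝒩 : NodalData (twoRed hqM (IsLocalRing.residue A) IsLocalRing.residue_surjective))
    (hP : 𝒩.P = polarDiv Kb (jF (M * q))) (s₀ : 𝒩.S)
    {Q : Place (ResidueField A) (Fb (ResidueField A) M)} (hQ : Q ∈ G₁ 𝒩) :
    ∃ z : FN (M * q), (∀ σ ∈ A.inertiaSubgroupIn ℚ, gal (M * q) σ • z = z) ∧
      IsLocalParam (twoRed hqM (IsLocalRing.residue A) IsLocalRing.residue_surjective).R₁.O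
        (twoRed hqM (IsLocalRing.residue A) IsLocalRing.residue_surjective).R₁.red
        (r₁ 𝒩 s₀) Q z := by
  obtain ⟨z, h1, h2⟩ := (rat_inertia hqM A hA 𝒩 hP).exists_isLocalParam₁
    (RB.isSepParam_jF (M * q)) (Cusp.isSepParam_jb M (ResidueField A) q hqM) s₀ hQ
  exact ⟨z, fun σ hσ => h1 _ ⟨σ, hσ, rfl⟩, h2⟩

/-- **an inertia-fixed local parameter at every good point of the second component.** -/
theorem exists_inertia_localParam₂ (hA : A.LiesOverPrime q)
    (𝒩 : NodalData (twoRed hqM (IsLocalRing.residue A) IsLocalRing.residue_surjective))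
    (hP : 𝒩.P = polarDiv Kb (jF (M * q))) (s₀ : 𝒩.S)
    {Q : Place (ResidueField A) (Fb (ResidueField A) M)} (hQ : Q ∈ G₂ 𝒩) :
    ∃ z : FN (M * q), (∀ σ ∈ A.inertiaSubgroupIn ℚ, gal (M * q) σ • z = z) ∧
      IsLocalParam (twoRed hqM (IsLocalRing.residue A) IsLocalRing.residue_surjective).R₂.O
        (twoRed hqM (IsLocalRing.residue A) IsLocalRing.residue_surjective).R₂.red
        (r₂ 𝒩 s₀) Q z := by
  obtain ⟨z, h1, h2⟩ := (rat_inertia hqM A hA 𝒩 hP).exists_isLocalParam₂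
    (RB.isSepParam_jF (M * q)) (Cusp.isSepParam_jb M (ResidueField A) q hqM) s₀ hQ
  exact ⟨z, fun σ hσ => h1 _ ⟨σ, hσ, rfl⟩, h2⟩

end Fermat.Agent.ND
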